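import Fermat.Agent.LT.LatticeTheta.Poisson
import Mathlib.Analysis.SpecialFunctions.Gaussian.FourierTransform
import Mathlib.LinearAlgebra.Matrix.NonsingularInverse

/-!
# Poisson summation for Gaussians

Poisson summation for `exp (-π ∑ aᵢ (A x)ᵢ²)` with a translation and a character.
-/

set_option autoImplicit false

noncomputable section

open MeasureTheory Complex Topology Filter
open scoped Real Matrix

namespace Fermat.Agent.LT.LatticeTheta

variable {ι : Type*} [Fintype ι]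

theorem summable_exp_neg_mul_int_sq {c : ℝ} (hc : 0 < c) :
    Summable fun n : ℤ => Real.exp (-c * (n : ℝ) ^ 2) := by
  have h : Summable fun n : ℕ => Real.exp (-c * (n : ℝ) ^ 2) := by
    refine Summable.of_nonneg_of_le (fun n => (Real.exp_pos _).le) (fun n => ?_)
      (Real.summable_exp_nat_mul_iff.2 (neg_lt_zero.2 hc))
    rw [Real.exp_le_exp]
    have hn : (n : ℝ) ≤ (n : ℝ) ^ 2 := by
      rcases Nat.eq_zero_or_pos n with rfl | hn
      · simp
      · exact le_self_pow₀ (by exact_mod_cast hn) two_ne_zero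
    nlinarith
  exact Summable.of_nat_of_neg (by simpa using h) (by simpa using h)

theorem summable_prod_fin {g : ℤ → ℝ} (h0 : ∀ n, 0 ≤ g n) (hg : Summable g) :
    ∀ n : ℕ, Summable fun v : Fin n → ℤ => ∏ i, g (v i)
  | 0 => (hasSum_fintype _).summable
  | n + 1 => by
    have h := hg.mul_of_nonneg (summable_prod_fin h0 hg n) h0
      fun v => Finset.prod_nonneg fun i _ => h0 _
    rw [← (Fin.consEquiv fun _ : Fin (n + 1) => ℤ).summable_iff]
    refine h.congr fun p => ?_
    simp [Fin.prod_univ_succ, Fin.consEquiv]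

theorem summable_prod_pi {g : ℤ → ℝ} (h0 : ∀ n, 0 ≤ g n) (hg : Summable g) :
    Summable fun v : ι → ℤ => ∏ i, g (v i) := by
  have e := Fintype.equivFin ι
  rw [← (Equiv.arrowCongr e.symm (Equiv.refl ℤ)).summable_iff]
  refine (summable_prod_fin h0 hg (Fintype.card ι)).congr fun v => ?_
  simp only [Function.comp_apply, Equiv.arrowCongr_apply, Equiv.coe_refl, id_eq, Equiv.symm_symm]
  exact (e.prod_comp fun i => g (v i)).symm

/-- The Gaussian of a quadratic form with complex coefficients in the coordinates `A x`. -/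
def gaussTerm (A : Matrix ι ι ℝ) (a : ι → ℂ) (x : ι → ℝ) : ℂ :=
  Complex.exp (-π * ∑ i, a i * (((A *ᵥ x) i : ℝ) : ℂ) ^ 2)

/-- The Gaussian is even. -/
theorem gaussTerm_neg (A : Matrix ι ι ℝ) (a : ι → ℂ) (x : ι → ℝ) :
    gaussTerm A a (-x) = gaussTerm A a x := by
  simp [gaussTerm, Matrix.mulVec_neg]

theorem continuous_gaussTerm (A : Matrix ι ι ℝ) (a : ι → ℂ) : Continuous (gaussTerm A a) := by
  unfold gaussTerm
  simp only [Matrix.mulVec, dotProduct]
  fun_prop

theorem norm_gaussTerm (A : Matrix ι ι ℝ) (a : ι → ℂ) (x : ι → ℝ) :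
    ‖gaussTerm A a x‖ = Real.exp (-π * ∑ i, (a i).re * ((A *ᵥ x) i) ^ 2) := by
  rw [gaussTerm, Complex.norm_exp]
  congr 1
  simp [Complex.mul_re, Complex.re_sum, ← Complex.ofReal_pow]

variable [DecidableEq ι]

/-- Coercivity of a nondegenerate Gaussian. -/
theorem exists_gauss_coercive {A : Matrix ι ι ℝ} (hA : A.det ≠ 0) {a : ι → ℂ}
    (ha : ∀ i, 0 < (a i).re) :
    ∃ c > 0, ∀ x : ι → ℝ, c * ∑ j, x j ^ 2 ≤ ∑ i, (a i).re * ((A *ᵥ x) i) ^ 2 := by
  classical
  set B := A⁻¹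
  set K : ℝ := 1 + ∑ j, ∑ i, B j i ^ 2 with hK
  set S : Finset ℝ := insert 1 (Finset.univ.image fun i => (a i).re)
  set μ := S.min' (Finset.insert_nonempty _ _)
  have hμ : 0 < μ := by
    rw [Finset.lt_min'_iff]
    intro y hy
    rcases Finset.mem_insert.1 hy with rfl | hy
    · exact one_pos
    · obtain ⟨i, -, rfl⟩ := Finset.mem_image.1 hy
      exact ha i
  have hμle : ∀ i, μ ≤ (a i).re := fun i =>
    Finset.min'_le _ _ (Finset.mem_insert_of_mem (Finset.mem_image.2 ⟨i, Finset.mem_univ _, rfl⟩))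
  have hK0 : 0 < K := by positivity
  refine ⟨μ / K, by positivity, fun x => ?_⟩
  set w := A *ᵥ x with hw
  have hx : x = B *ᵥ w := by
    rw [hw, Matrix.mulVec_mulVec, Matrix.nonsing_inv_mul _ (isUnit_iff_ne_zero.2 hA),
      Matrix.one_mulVec]
  have h1 : ∀ j, x j ^ 2 ≤ (∑ i, B j i ^ 2) * ∑ i, w i ^ 2 := fun j => by
    rw [hx]
    exact Finset.sum_mul_sq_le_sq_mul_sq _ _ _
  have hw0 : (0 : ℝ) ≤ ∑ i, w i ^ 2 := Finset.sum_nonneg fun i _ => sq_nonneg _
  have h2 : ∑ j, x j ^ 2 ≤ K * ∑ i, w i ^ 2 := by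
    refine (Finset.sum_le_sum fun j _ => h1 j).trans ?_
    rw [← Finset.sum_mul]
    exact mul_le_mul_of_nonneg_right (by linarith) hw0
  have h3 : μ * ∑ i, w i ^ 2 ≤ ∑ i, (a i).re * w i ^ 2 := by
    rw [Finset.mul_sum]
    exact Finset.sum_le_sum fun i _ => mul_le_mul_of_nonneg_right (hμle i) (sq_nonneg _)
  calc μ / K * ∑ j, x j ^ 2 ≤ μ / K * (K * ∑ i, w i ^ 2) :=
        mul_le_mul_of_nonneg_left h2 (by positivity)
    _ = μ * ∑ i, w i ^ 2 := by field_simp
    _ ≤ _ := h3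

/-- Gaussians are locally dominated. -/
theorem locallyDominated_gauss {A : Matrix ι ι ℝ} (hA : A.det ≠ 0) {a : ι → ℂ}
    (ha : ∀ i, 0 < (a i).re) : LocallyDominated (gaussTerm A a) := by
  intro R
  obtain ⟨c, hc, hco⟩ := exists_gauss_coercive hA ha
  refine ⟨fun n => Real.exp (π * c * Fintype.card ι * R ^ 2) *
    ∏ i, Real.exp (-(π * c / 2) * (n i : ℝ) ^ 2), ?_, fun n x hx => ?_⟩
  · exact (summable_prod_pi (fun _ => (Real.exp_pos _).le)
      (summable_exp_neg_mul_int_sq (by positivity))).mul_left _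
  · beta_reduce
    rw [norm_gaussTerm, ← Real.exp_sum, ← Real.exp_add, Real.exp_le_exp]
    have hj : ∀ j, (n j : ℝ) ^ 2 / 2 - R ^ 2 ≤ (x + intVec n) j ^ 2 := fun j => by
      have hxj : |x j| ≤ R := (norm_le_pi_norm x j).trans hx
      have : x j ^ 2 ≤ R ^ 2 := sq_le_sq' (abs_le.1 hxj).1 (abs_le.1 hxj).2
      simp only [Pi.add_apply, intVec_apply]
      nlinarith [sq_nonneg (2 * x j + (n j : ℝ))]
    have hsum : ∑ j, ((n j : ℝ) ^ 2 / 2 - R ^ 2) ≤ ∑ j, (x + intVec n) j ^ 2 :=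
      Finset.sum_le_sum fun j _ => hj j
    have h := hco (x + intVec n)
    rw [Finset.sum_sub_distrib, Finset.sum_const, Finset.card_univ, nsmul_eq_mul,
      ← Finset.sum_div] at hsum
    rw [← Finset.mul_sum]
    have h' := mul_le_mul_of_nonneg_left hsum hc.le
    have hpi := Real.pi_pos
    nlinarith

omit [DecidableEq ι] in
theorem locallyDominated_mul_expi {f : (ι → ℝ) → ℂ} (hf : LocallyDominated f)
    (φ : (ι → ℝ) → ℝ) : LocallyDominated fun x => f x * expi (φ x) := fun R => by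
  obtain ⟨bd, hbd, hle⟩ := hf R
  exact ⟨bd, hbd, fun n x hx => by rw [norm_mul, norm_expi, mul_one]; exact hle n x hx⟩

/-- The dual Gaussian. -/
def dualGauss (A : Matrix ι ι ℝ) (a : ι → ℂ) (x : ι → ℝ) : ℂ :=
  gaussTerm (A⁻¹)ᵀ (fun i => (a i)⁻¹) x

/-- The constant in Poisson summation of a Gaussian. -/
def gaussConst (A : Matrix ι ι ℝ) (a : ι → ℂ) : ℂ :=
  (|A.det|⁻¹ : ℝ) * ∏ i, (1 / a i) ^ (1 / 2 : ℂ)

/-- The inverse preserves the right half plane. -/
theorem re_inv_pos {z : ℂ} (hz : 0 < z.re) : 0 < z⁻¹.re := by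
  rw [Complex.inv_re]
  exact div_pos hz (Complex.normSq_pos.2 fun h => by simp [h] at hz)

theorem det_inv_transpose_ne_zero {A : Matrix ι ι ℝ} (hA : A.det ≠ 0) : (A⁻¹)ᵀ.det ≠ 0 := by
  rw [Matrix.det_transpose, Matrix.det_nonsing_inv, Ring.inverse_eq_inv']
  exact inv_ne_zero hA

theorem latticeFourier_gauss {A : Matrix ι ι ℝ} (hA : A.det ≠ 0) {a : ι → ℂ}
    (ha : ∀ i, 0 < (a i).re) (ξ : ι → ℝ) (m : ι → ℤ) :
    latticeFourier (fun x => gaussTerm A a x * expi (∑ i, ξ i * x i)) m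
      = gaussConst A a * dualGauss A a (intVec m - ξ) := by
  set v : ι → ℝ := (A⁻¹)ᵀ *ᵥ (intVec m - ξ) with hv
  set c : ι → ℂ := fun i => -(2 * π * Complex.I * (v i : ℂ)) with hc
  set g : (ι → ℝ) → ℂ := fun w =>
    Complex.exp (-∑ i, (π * a i) * (w i : ℂ) ^ 2 + ∑ i, c i * w i) with hg
  have hfun : ∀ y : ι → ℝ, gaussTerm A a y * expi (∑ i, ξ i * y i) * expi (-∑ i, (m i : ℝ) * y i)
      = g (A *ᵥ y) := fun y => by
    have hvw : ∑ i, v i * (A *ᵥ y) i = ∑ i, (intVec m - ξ) i * y i := by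
      show dotProduct v (A *ᵥ y) = dotProduct (intVec m - ξ) y
      rw [Matrix.dotProduct_mulVec, hv, ← Matrix.mulVec_transpose, Matrix.mulVec_mulVec,
        ← Matrix.transpose_mul, Matrix.nonsing_inv_mul _ (isUnit_iff_ne_zero.2 hA),
        Matrix.transpose_one, Matrix.one_mulVec]
    rw [gaussTerm, expi, expi, hg, ← Complex.exp_add, ← Complex.exp_add]
    congr 1
    have hvw' := congrArg (fun r : ℝ => (-(2 * π * Complex.I)) * (r : ℂ)) hvw
    simp only [Pi.sub_apply, intVec_apply, sub_mul, Finset.sum_sub_distrib] at hvw'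
    push_cast at hvw' ⊢
    rw [Finset.mul_sum] at hvw'
    simp only [hc, mul_assoc, neg_mul, Finset.sum_neg_distrib, ← Finset.mul_sum] at hvw' ⊢
    linear_combination -hvw'
  rw [latticeFourier, integral_congr_ae (Eventually.of_forall hfun)]
  have hmap := Real.map_matrix_volume_pi_eq_smul_volume_pi (M := A) hA
  have hlin : Continuous (fun y : ι → ℝ => A *ᵥ y) := (Matrix.toLin' A).continuous_on_pi
  have hgc : Continuous g := by rw [hg]; fun_prop
  have hint : ∫ y : ι → ℝ, g (A *ᵥ y) = |A.det|⁻¹ • ∫ w : ι → ℝ, g w := by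
    rw [← integral_map (φ := fun y : ι → ℝ => A *ᵥ y) hlin.measurable.aemeasurable
      hgc.aestronglyMeasurable,
      show (fun y : ι → ℝ => A *ᵥ y) = ⇑(Matrix.toLin' A) from rfl, hmap,
      integral_smul_measure, ENNReal.toReal_ofReal (abs_nonneg _), abs_inv]
  rw [hint, hg, GaussianFourier.integral_cexp_neg_sum_mul_add
    (fun i => by rw [Complex.re_ofReal_mul]; exact mul_pos Real.pi_pos (ha i)),
    gaussConst, dualGauss, gaussTerm, Complex.real_smul, Finset.prod_mul_distrib, ← Complex.exp_sum]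
  have hpi : (π : ℂ) ≠ 0 := Complex.ofReal_ne_zero.2 Real.pi_ne_zero
  have h1 : ∀ i, (π : ℂ) / (π * a i) = 1 / a i := fun i => by
    field_simp
  simp only [h1, ← hv, mul_assoc]
  congr 3
  rw [Finset.mul_sum]
  refine Finset.sum_congr rfl fun i _ => ?_
  have hai : a i ≠ 0 := fun h => by simpa [h] using ha i
  simp only [hc]
  field_simp
  ring_nf
  rw [Complex.I_sq]
  ring

/-- The dual Gaussian series converges. -/
theorem summable_dualGauss {A : Matrix ι ι ℝ} (hA : A.det ≠ 0) {a : ι → ℂ}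
    (ha : ∀ i, 0 < (a i).re) (ξ : ι → ℝ) :
    Summable fun m : ι → ℤ => dualGauss A a (intVec m - ξ) := by
  refine (LocallyDominated.summable (f := dualGauss A a) (locallyDominated_gauss
    (det_inv_transpose_ne_zero hA) fun i => re_inv_pos (ha i)) (-ξ)).congr fun m => ?_
  rw [neg_add_eq_sub]

/-- **Poisson summation for Gaussians** with translation `h` and character `ξ`. -/
theorem tsum_gauss_mul_expi {A : Matrix ι ι ℝ} (hA : A.det ≠ 0) {a : ι → ℂ}
    (ha : ∀ i, 0 < (a i).re) (h ξ : ι → ℝ) :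
    ∑' n : ι → ℤ, gaussTerm A a (h + intVec n) * expi (∑ i, ξ i * (h + intVec n) i)
      = gaussConst A a * ∑' m : ι → ℤ, dualGauss A a (intVec m - ξ) * expi (∑ i, (m i : ℝ) * h i) := by
  have hc : Continuous fun x => gaussTerm A a x * expi (∑ i, ξ i * x i) :=
    (continuous_gaussTerm A a).mul (continuous_expi.comp (by fun_prop))
  have hF : latticeFourier (fun x => gaussTerm A a x * expi (∑ i, ξ i * x i))
      = fun m => gaussConst A a * dualGauss A a (intVec m - ξ) :=
    funext (latticeFourier_gauss hA ha ξ)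
  rw [tsum_eq_tsum_latticeFourier hc (locallyDominated_mul_expi (locallyDominated_gauss hA ha) _)
    (hF ▸ (summable_dualGauss hA ha ξ).mul_left _) h, hF, ← tsum_mul_left]
  exact tsum_congr fun m => mul_assoc _ _ _

end Fermat.Agent.LT.LatticeTheta
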