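import Fermat.Agent.LT.LatticeTheta.Theta
import Mathlib.NumberTheory.ModularForms.SlashActions
import Mathlib.NumberTheory.ModularForms.CongruenceSubgroups

/-!
# Theta series of cosets `h + N Λ`

The theta series of a coset of the scaled lattice of Hermitian matrices over `ℤ[ζ₃]`, with a
majorant attached to a point of hyperbolic three-space, transforms with weight one.
-/

set_option autoImplicit false

noncomputable section

open Complex Matrix
open scoped Real Matrix MatrixGroups ModularForm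

namespace Fermat.Agent.LT.LatticeTheta

/-- `√y ∑_{X ∈ h + NΛ} e(x n(X)) exp (-2π y maj_P(X))`, a function of weight one. -/
def thetaCoset (P : H3) (N : ℕ) (h : Fin 4 → ℤ) (τ : UpperHalfPlane) : ℂ :=
  (√τ.im : ℝ) * ∑' n : Fin 4 → ℤ, expi (τ.re * nForm (hermMat (intVec (h + (N : ℤ) • n))))
    * (Real.exp (-2 * π * τ.im * majForm P (hermMat (intVec (h + (N : ℤ) • n)))) : ℝ)

variable (P : H3) (N : ℕ) [NeZero N]

/-- `τ ↦ N² τ`. -/
def scalePt (τ : UpperHalfPlane) : UpperHalfPlane :=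
  ⟨(((N : ℝ) ^ 2 : ℝ) : ℂ) * τ, by
    rw [Complex.im_ofReal_mul]
    have hN : (0 : ℝ) < N := Nat.cast_pos.2 (Nat.pos_of_ne_zero (NeZero.ne N))
    exact mul_pos (pow_pos hN 2) τ.im_pos⟩

theorem coe_scalePt (τ : UpperHalfPlane) :
    (scalePt N τ : ℂ) = (((N : ℝ) ^ 2 : ℝ) : ℂ) * τ := rfl

theorem scalePt_re (τ : UpperHalfPlane) : (scalePt N τ).re = (N : ℝ) ^ 2 * τ.re :=
  Complex.re_ofReal_mul _ _

theorem scalePt_im (τ : UpperHalfPlane) : (scalePt N τ).im = (N : ℝ) ^ 2 * τ.im :=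
  Complex.im_ofReal_mul _ _

theorem natCast_ne_zero_real : (N : ℝ) ≠ 0 := Nat.cast_ne_zero.2 (NeZero.ne N)

theorem thetaCoset_term (h n : Fin 4 → ℤ) (τ : UpperHalfPlane) :
    expi (τ.re * nForm (hermMat (intVec (h + (N : ℤ) • n))))
      * (Real.exp (-2 * π * τ.im * majForm P (hermMat (intVec (h + (N : ℤ) • n)))) : ℝ)
      = (hermLattice P).phi (scalePt N τ) (intVec n + (N : ℝ)⁻¹ • intVec h) := by
  have e : intVec (h + (N : ℤ) • n)
      = (N : ℝ) • (intVec n + (N : ℝ)⁻¹ • intVec h) := by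
    funext i
    have := natCast_ne_zero_real N
    simp [intVec]
    field_simp
    ring
  rw [hermLattice_phi, e, scalePt_re, scalePt_im, nForm_hermMat, nForm_hermMat,
    majForm_hermMat, majForm_hermMat, Matrix.mulVec_smul]
  simp only [Pi.smul_apply, smul_eq_mul, mul_pow, ← Finset.mul_sum]
  ring_nf

theorem thetaCoset_eq_thetaChar (h : Fin 4 → ℤ) (τ : UpperHalfPlane) :
    thetaCoset P N h τ
      = (N : ℂ)⁻¹ * thetaChar P (scalePt N τ) ((N : ℝ)⁻¹ • intVec h) 0 := by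
  have hN : (N : ℂ) ≠ 0 := Nat.cast_ne_zero.2 (NeZero.ne N)
  rw [thetaCoset, thetaChar, scalePt_im, Real.sqrt_mul (sq_nonneg _),
    Real.sqrt_sq (Nat.cast_nonneg _), Complex.ofReal_mul, Complex.ofReal_natCast]
  rw [mul_assoc (N : ℂ), inv_mul_cancel_left₀ hN]
  congr 1
  refine tsum_congr fun n => ?_
  have h0 : ∀ x : Fin 4 → ℝ, (hermLattice P).bil x 0 = 0 := fun x => by
    simp [EvenLattice.bil]
  rw [h0, expi_zero, mul_one, thetaCoset_term]

/-- The coset theta series converges absolutely. -/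
theorem summable_thetaCoset (h : Fin 4 → ℤ) (τ : UpperHalfPlane) :
    Summable fun n : Fin 4 → ℤ => expi (τ.re * nForm (hermMat (intVec (h + (N : ℤ) • n))))
      * ((Real.exp (-2 * π * τ.im * majForm P (hermMat (intVec (h + (N : ℤ) • n)))) : ℝ) : ℂ) := by
  have h0 : ∀ x : Fin 4 → ℝ, (hermLattice P).bil x 0 = 0 := fun x => by
    simp [EvenLattice.bil]
  refine ((hermLattice P).summable_series (scalePt N τ) ((N : ℝ)⁻¹ • intVec h) 0).congr fun n => ?_
  rw [h0, expi_zero, mul_one, thetaCoset_term]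

omit [NeZero N] in
/-- The coset theta series depends on `h` modulo `N`. -/
theorem thetaCoset_congr {h h' : Fin 4 → ℤ} (hh : ∀ i, (N : ℤ) ∣ h' i - h i)
    (τ : UpperHalfPlane) : thetaCoset P N h' τ = thetaCoset P N h τ := by
  choose k hk using hh
  have e : ∀ n : Fin 4 → ℤ, h' + (N : ℤ) • n = h + (N : ℤ) • (k + n) := fun n => by
    funext i
    simp only [Pi.add_apply, Pi.smul_apply, smul_eq_mul]
    linear_combination hk i
  simp only [thetaCoset, e]
  congr 1
  exact (Equiv.addLeft k).tsum_eq fun n => expi (τ.re * nForm (hermMat (intVec (h + (N : ℤ) • n))))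
    * ((Real.exp (-2 * π * τ.im * majForm P (hermMat (intVec (h + (N : ℤ) • n)))) : ℝ) : ℂ)

theorem thetaChar_add_intVec (τ : UpperHalfPlane) (h : Fin 4 → ℤ) (a b : ℤ) :
    thetaChar P τ ((a : ℝ) • ((N : ℝ)⁻¹ • intVec h)) (((b * N : ℤ) : ℝ) • intVec h)
      = thetaChar P τ ((a : ℝ) • ((N : ℝ)⁻¹ • intVec h)) 0 := by
  have h0 : ∀ x : Fin 4 → ℝ, (hermLattice P).bil x 0 = 0 := fun x => by
    simp [EvenLattice.bil]
  rw [thetaChar, thetaChar]
  congr 1
  refine tsum_congr fun n => ?_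
  congr 1
  rw [h0]
  obtain ⟨q, hq⟩ := (hermLattice P).exists_quad_intVec h
  have hb : (hermLattice P).bil (intVec n) (intVec h)
      = ((n ⬝ᵥ ((hermLattice P).gram *ᵥ h) : ℤ) : ℝ) := by
    rw [EvenLattice.bil, EvenLattice.gramR_mulVec_intVec]
    simp [dotProduct, intVec]
  have hN := natCast_ne_zero_real N
  have he : (hermLattice P).bil (intVec n + (1 / 2 : ℝ) • ((a : ℝ) • ((N : ℝ)⁻¹ • intVec h)))
      (((b * N : ℤ) : ℝ) • intVec h)
      = 0 + (((b * N) * (n ⬝ᵥ ((hermLattice P).gram *ᵥ h)) + a * b * q : ℤ) : ℝ) := by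
    rw [EvenLattice.bil_add_left, EvenLattice.bil_smul_right, EvenLattice.bil_smul_right,
      EvenLattice.bil_smul_left, EvenLattice.bil_smul_left, EvenLattice.bil_smul_left, hb]
    rw [EvenLattice.quad] at hq
    push_cast
    rw [← hq]
    field_simp
    ring
  rw [he, expi_add_int]

/-- **Weight one under `Γ₀(3 N²)`**, with character and permutation of the cosets. -/
theorem thetaCoset_smul {g : SL(2, ℤ)} (hg : 3 * (N : ℤ) ^ 2 ∣ g 1 0) (h : Fin 4 → ℤ)
    (τ : UpperHalfPlane) :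
    thetaCoset P N h (g • τ) = chiThree ((g 1 1 : ℤ) : ZMod 3)
      * ((g 1 0 : ℤ) * (τ : ℂ) + (g 1 1 : ℤ)) * thetaCoset P N ((g 0 0) • h) τ := by
  obtain ⟨c', hc'⟩ := hg
  have hdet : g 0 0 * g 1 1 - g 0 1 * g 1 0 = 1 := by
    rw [← Matrix.det_fin_two]; exact g.det_coe
  let δ : SL(2, ℤ) := ⟨!![g 0 0, g 0 1 * (N : ℤ) ^ 2; 3 * c', g 1 1], by
    rw [Matrix.det_fin_two_of]; rw [hc'] at hdet; linear_combination hdet⟩
  have d00 : δ 0 0 = g 0 0 := rfl
  have d01 : δ 0 1 = g 0 1 * (N : ℤ) ^ 2 := rfl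
  have d10 : δ 1 0 = 3 * c' := rfl
  have d11 : δ 1 1 = g 1 1 := rfl
  have hN : (N : ℂ) ≠ 0 := Nat.cast_ne_zero.2 (NeZero.ne N)
  have hs : scalePt N (g • τ) = δ • scalePt N τ := by
    ext1
    rw [coe_scalePt, UpperHalfPlane.coe_specialLinearGroup_apply,
      UpperHalfPlane.coe_specialLinearGroup_apply, d00, d01, d10, d11, coe_scalePt, hc']
    simp
    rw [← mul_div_assoc]
    ring_nf
  rw [thetaCoset_eq_thetaChar, hs, thetaChar_smul P (by rw [d10]; exact dvd_mul_right _ _),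
    d00, d01, d10, d11, smul_zero, smul_zero, add_zero, add_zero, coe_scalePt,
    show ((g 0 1 * (N : ℤ) ^ 2 : ℤ) : ℝ) • (N : ℝ)⁻¹ • intVec h
      = ((g 0 1 * N : ℤ) : ℝ) • intVec h by
      have := natCast_ne_zero_real N
      rw [smul_smul]; congr 1; push_cast; field_simp,
    thetaChar_add_intVec, thetaCoset_eq_thetaChar,
    show (N : ℝ)⁻¹ • intVec (g 0 0 • h) = (g 0 0 : ℝ) • ((N : ℝ)⁻¹ • intVec h) by
      funext i; simp [intVec]; ring, hc']
  push_cast
  ring

end Fermat.Agent.LT.LatticeTheta
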