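import Mathlib.NumberTheory.ModularForms.CongruenceSubgroups
import Mathlib.LinearAlgebra.Matrix.SpecialLinearGroup
import Mathlib.NumberTheory.Modular

/-!
# An induction principle for `Γ₀(3)`

`Γ₀(3)` is generated by `-1`, `T` and `[[1, 0], [3, 1]]`.
-/

set_option autoImplicit false

noncomputable section

open Matrix Matrix.SpecialLinearGroup
open scoped MatrixGroups

namespace Fermat.Agent.LT.LatticeTheta

/-- Upper unitriangular matrices. -/
def upperMat (n : ℤ) : SL(2, ℤ) := ⟨!![1, n; 0, 1], by simp [Matrix.det_fin_two_of]⟩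

/-- Lower unitriangular matrices. -/
def lowerMat (n : ℤ) : SL(2, ℤ) := ⟨!![1, 0; n, 1], by simp [Matrix.det_fin_two_of]⟩

/-- The matrix of `upperMat n`. -/
theorem coe_upperMat (n : ℤ) : (upperMat n : Matrix (Fin 2) (Fin 2) ℤ) = !![1, n; 0, 1] := rfl

/-- The matrix of `lowerMat n`. -/
theorem coe_lowerMat (n : ℤ) : (lowerMat n : Matrix (Fin 2) (Fin 2) ℤ) = !![1, 0; n, 1] := rfl

theorem upperMat_neg_mul (n : ℤ) (g : SL(2, ℤ)) : upperMat (-n) * (upperMat n * g) = g := by
  rw [← mul_assoc]
  convert one_mul g using 2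
  ext i j
  fin_cases i <;> fin_cases j <;> simp [coe_upperMat]

theorem lowerMat_neg_mul (n : ℤ) (g : SL(2, ℤ)) : lowerMat (-n) * (lowerMat n * g) = g := by
  rw [← mul_assoc]
  convert one_mul g using 2
  ext i j
  fin_cases i <;> fin_cases j <;> simp [coe_lowerMat]

theorem exists_two_mul_abs_add_mul_le (a c : ℤ) (hc : c ≠ 0) :
    ∃ n : ℤ, 2 * |a + n * c| ≤ |c| := by
  have h1 := Int.emod_nonneg a hc
  have h2 := Int.emod_lt_abs a hc
  have h3 := Int.mul_ediv_add_emod a c
  by_cases h : 2 * (a % c) ≤ |c|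
  · refine ⟨-(a / c), ?_⟩
    rw [show a + -(a / c) * c = a % c by linear_combination -h3, abs_of_nonneg h1]
    exact h
  · rcases lt_or_gt_of_ne hc with hneg | hpos
    · rw [abs_of_neg hneg] at h h2 ⊢
      refine ⟨-(a / c) + 1, ?_⟩
      rw [show a + (-(a / c) + 1) * c = a % c + c by linear_combination -h3,
        abs_of_nonpos (by omega)]
      omega
    · rw [abs_of_pos hpos] at h h2 ⊢
      refine ⟨-(a / c) - 1, ?_⟩
      rw [show a + (-(a / c) - 1) * c = a % c - c by linear_combination -h3,
        abs_of_nonpos (by omega)]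
      omega

/-- `Γ₀(3)` is generated by `-1`, upper unitriangular matrices and lower ones divisible by `3`. -/
theorem gamma0Three_induction {p : SL(2, ℤ) → Prop} (hone : p 1) (hneg : ∀ g, p g → p (-g))
    (hupper : ∀ g n, p g → p (upperMat n * g)) (hlower : ∀ g n, p g → p (lowerMat (3 * n) * g))
    {g : SL(2, ℤ)} (hg : (3 : ℤ) ∣ g 1 0) : p g := by
  suffices ∀ (k : ℕ) (g : SL(2, ℤ)), (g 1 0).natAbs = k → (3 : ℤ) ∣ g 1 0 → p g from
    this _ g rfl hg
  clear hg g
  intro k
  induction k using Nat.strong_induction_on with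
  | _ k ih =>
    intro g hk hg
    have hdet : g 0 0 * g 1 1 - g 0 1 * g 1 0 = 1 := by
      rw [← Matrix.det_fin_two]; exact g.det_coe
    by_cases hc : g 1 0 = 0
    · rw [hc, mul_zero, sub_zero] at hdet
      have hu := upperMat_neg_mul
      rcases Int.eq_one_or_neg_one_of_mul_eq_one hdet with ha | ha <;>
        rw [ha] at hdet
      · have : g = upperMat (g 0 1) * 1 := by
          ext i j
          fin_cases i <;> fin_cases j <;> simp [coe_upperMat, hc, ha]
          all_goals linarith
        rw [this]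
        exact hupper _ _ hone
      · have : g = -(upperMat (-(g 0 1)) * 1) := by
          ext i j
          fin_cases i <;> fin_cases j <;> simp [coe_upperMat, hc, ha]
          all_goals linarith
        rw [this]
        exact hneg _ (hupper _ _ hone)
    · obtain ⟨n, hn⟩ := exists_two_mul_abs_add_mul_le (g 0 0) (g 1 0) hc
      set a' := g 0 0 + n * g 1 0 with ha'
      have ha'0 : a' ≠ 0 := by
        intro h
        obtain ⟨e, he⟩ := hg
        have : (3 : ℤ) ∣ 1 := ⟨g 1 1 * (-n * e) - g 0 1 * e, by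
          linear_combination -hdet + g 1 1 * (h - ha') + (-(g 1 1 * n) - g 0 1) * he⟩
        omega
      obtain ⟨m, hm⟩ := exists_two_mul_abs_add_mul_le (g 1 0) (3 * a') (by omega)
      set g' := lowerMat (3 * m) * (upperMat n * g) with hg'
      have h10 : g' 1 0 = g 1 0 + m * (3 * a') := by
        simp [hg', coe_upperMat, coe_lowerMat, ha', Matrix.mul_apply, Fin.sum_univ_two,
          Matrix.vecMul, dotProduct]
        ring
      have hlt : (g' 1 0).natAbs < k := by
        rw [h10, ← hk, ← Int.ofNat_lt, ← Int.abs_eq_natAbs, ← Int.abs_eq_natAbs]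
        rw [abs_mul, abs_of_pos (three_pos (α := ℤ))] at hm
        have := abs_pos.2 hc
        omega
      have hdvd : (3 : ℤ) ∣ g' 1 0 := by
        rw [h10]
        exact dvd_add hg ⟨m * a', by ring⟩
      have := hupper _ (-n) (hlower _ (-m) (ih _ hlt g' rfl hdvd))
      rwa [hg', mul_neg, lowerMat_neg_mul, upperMat_neg_mul] at this

end Fermat.Agent.LT.LatticeTheta
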