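import Fermat.Agent.LT.LatticeTheta.Gaussian
import Mathlib.Analysis.Complex.UpperHalfPlane.MoebiusAction
import Mathlib.Data.ZMod.Basic

/-!
# Theta series of indefinite even lattices

Theta series of an even lattice with an arbitrary majorant and real characteristics, with their
translation and inversion laws.
-/

set_option autoImplicit false

noncomputable section

open Complex
open scoped Real Matrix

namespace Fermat.Agent.LT.LatticeTheta

variable {ι : Type*} [Fintype ι] [DecidableEq ι]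

omit [DecidableEq ι] in
/-- A symmetric integral matrix with even diagonal takes even values. -/
theorem two_dvd_quadForm {M : Matrix ι ι ℤ} (hs : M.IsSymm) (hd : ∀ i, 2 ∣ M i i) (n : ι → ℤ) :
    2 ∣ ∑ i, ∑ j, n i * M i j * n j := by
  rw [show (2 : ℤ) = ((2 : ℕ) : ℤ) from rfl, ← ZMod.intCast_zmod_eq_zero_iff_dvd]
  push_cast
  rw [← Finset.sum_product']
  refine Finset.sum_involution (fun p _ => p.swap) (fun p _ => ?_) (fun p _ hp => ?_)
    (fun p _ => Finset.mem_product.2 ⟨Finset.mem_univ _, Finset.mem_univ _⟩) fun p _ => Prod.swap_swap p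
  · simp only [Prod.fst_swap, Prod.snd_swap]
    rw [show M p.2 p.1 = M p.1 p.2 from hs.apply p.1 p.2]
    rw [show (n p.2 : ZMod 2) * (M p.1 p.2 : ZMod 2) * (n p.1 : ZMod 2)
      = (n p.1 : ZMod 2) * (M p.1 p.2 : ZMod 2) * (n p.2 : ZMod 2) by ring]
    exact CharTwo.add_self_eq_zero _
  · intro h
    have h' : p.2 = p.1 := congrArg Prod.fst h
    refine hp ?_
    rw [h', (ZMod.intCast_zmod_eq_zero_iff_dvd (M p.1 p.1) 2).2 (by exact_mod_cast hd p.1),
      mul_zero, zero_mul]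

/-- An even lattice `ℤ^ι` with Gram matrix `gram = 2 Aᵀ (diag sgn) A` of level dividing `level`. -/
structure EvenLattice (ι : Type*) [Fintype ι] [DecidableEq ι] where
  /-- coordinates in an orthonormal basis of the majorant -/
  A : Matrix ι ι ℝ
  det_ne : A.det ≠ 0
  /-- the signs -/
  sgn : ι → ℝ
  sgn_sq : ∀ i, sgn i = 1 ∨ sgn i = -1
  /-- the Gram matrix -/
  gram : Matrix ι ι ℤ
  gram_symm : gram.IsSymm
  gram_even : ∀ i, 2 ∣ gram i i
  gram_eq : gram.map (Int.cast : ℤ → ℝ) = (2 : ℝ) • (Aᵀ * Matrix.diagonal sgn * A)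
  /-- the level -/
  level : ℤ
  level_ne : level ≠ 0
  /-- `level • gram⁻¹` -/
  adj : Matrix ι ι ℤ
  adj_symm : adj.IsSymm
  adj_even : ∀ i, 2 ∣ adj i i
  gram_mul_adj : gram * adj = level • (1 : Matrix ι ι ℤ)

namespace EvenLattice

variable (D : EvenLattice ι)

/-- The real Gram matrix. -/
def gramR : Matrix ι ι ℝ := D.gram.map (Int.cast : ℤ → ℝ)

theorem gramR_symm : (D.gramR)ᵀ = D.gramR := by
  rw [gramR, ← Matrix.transpose_map, D.gram_symm.eq]

/-- The bilinear form. -/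
def bil (x y : ι → ℝ) : ℝ := x ⬝ᵥ (D.gramR *ᵥ y)

theorem bil_comm (x y : ι → ℝ) : D.bil x y = D.bil y x := by
  rw [bil, bil, Matrix.dotProduct_mulVec, ← Matrix.mulVec_transpose, D.gramR_symm, dotProduct_comm]

/-- The form is additive in the first variable. -/
theorem bil_add_left (x y z : ι → ℝ) : D.bil (x + y) z = D.bil x z + D.bil y z :=
  add_dotProduct _ _ _

theorem bil_add_right (x y z : ι → ℝ) : D.bil x (y + z) = D.bil x y + D.bil x z := by
  rw [bil, Matrix.mulVec_add, dotProduct_add]; rfl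

/-- The form is linear in the first variable. -/
theorem bil_smul_left (r : ℝ) (x y : ι → ℝ) : D.bil (r • x) y = r * D.bil x y :=
  smul_dotProduct _ _ _

/-- The form is linear in the second variable. -/
theorem bil_smul_right (r : ℝ) (x y : ι → ℝ) : D.bil x (r • y) = r * D.bil x y := by
  rw [bil, Matrix.mulVec_smul, dotProduct_smul]; rfl

theorem bil_neg_left (x y : ι → ℝ) : D.bil (-x) y = -D.bil x y := neg_dotProduct _ _

theorem bil_neg_right (x y : ι → ℝ) : D.bil x (-y) = -D.bil x y := by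
  rw [bil, Matrix.mulVec_neg, dotProduct_neg]; rfl

/-- The quadratic form. -/
def quad (x : ι → ℝ) : ℝ := D.bil x x / 2

/-- Polarisation. -/
theorem quad_add (x y : ι → ℝ) : D.quad (x + y) = D.quad x + D.bil x y + D.quad y := by
  simp only [quad, bil_add_left, bil_add_right, D.bil_comm y x]
  ring

/-- The form in diagonal coordinates. -/
theorem quad_eq_sum (x : ι → ℝ) : D.quad x = ∑ i, D.sgn i * (D.A *ᵥ x) i ^ 2 := by
  rw [quad, bil, gramR, D.gram_eq, Matrix.smul_mulVec, dotProduct_smul, ← Matrix.mulVec_mulVec,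
    ← Matrix.mulVec_mulVec, Matrix.dotProduct_mulVec, Matrix.vecMul_transpose, smul_eq_mul,
    mul_div_cancel_left₀ _ (two_ne_zero' ℝ)]
  refine Finset.sum_congr rfl fun i _ => ?_
  rw [Matrix.mulVec_diagonal]
  ring

/-- An element of the dual lattice. -/
def dualPt (n : ι → ℤ) : ι → ℝ := (D.level : ℝ)⁻¹ • intVec (D.adj *ᵥ n)

/-- The Gram matrix at a lattice point. -/
theorem gramR_mulVec_intVec (n : ι → ℤ) : D.gramR *ᵥ intVec n = intVec (D.gram *ᵥ n) := by
  funext i
  simp [gramR, Matrix.mulVec, dotProduct, intVec]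

/-- The Gram matrix at a dual point. -/
theorem gramR_mulVec_dualPt (n : ι → ℤ) : D.gramR *ᵥ D.dualPt n = intVec n := by
  rw [dualPt, Matrix.mulVec_smul, gramR_mulVec_intVec, Matrix.mulVec_mulVec, D.gram_mul_adj,
    Matrix.smul_mulVec, Matrix.one_mulVec]
  funext i
  have : (D.level : ℝ) ≠ 0 := by exact_mod_cast D.level_ne
  simp [intVec, this]

/-- The form is integral on the lattice. -/
theorem exists_quad_intVec (n : ι → ℤ) : ∃ m : ℤ, D.quad (intVec n) = m := by
  obtain ⟨m, hm⟩ := two_dvd_quadForm D.gram_symm D.gram_even n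
  refine ⟨m, ?_⟩
  rw [quad, bil, gramR_mulVec_intVec]
  have h : intVec n ⬝ᵥ intVec (D.gram *ᵥ n) = ((∑ i, ∑ j, n i * D.gram i j * n j : ℤ) : ℝ) := by
    simp [dotProduct, intVec, Matrix.mulVec, Finset.mul_sum, mul_assoc]
  rw [h, hm]
  push_cast
  ring

theorem exists_level_mul_quad_dualPt (n : ι → ℤ) :
    ∃ m : ℤ, (D.level : ℝ) * D.quad (D.dualPt n) = m := by
  obtain ⟨m, hm⟩ := two_dvd_quadForm D.adj_symm D.adj_even n
  refine ⟨m, ?_⟩
  have : (D.level : ℝ) ≠ 0 := by exact_mod_cast D.level_ne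
  rw [quad, bil, gramR_mulVec_dualPt, dualPt, smul_dotProduct, smul_eq_mul]
  have h : intVec (D.adj *ᵥ n) ⬝ᵥ intVec n = ((∑ i, ∑ j, n i * D.adj i j * n j : ℤ) : ℝ) := by
    simp only [dotProduct, intVec, Matrix.mulVec, Int.cast_sum, Int.cast_mul, Finset.sum_mul]
    exact Finset.sum_congr rfl fun i _ => Finset.sum_congr rfl fun j _ => by ring
  rw [h, hm]
  push_cast
  field_simp

/-- The Gaussian coefficients at `τ`. -/
def coef (τ : UpperHalfPlane) (i : ι) : ℂ := 2 * τ.im - 2 * Complex.I * (τ.re * D.sgn i : ℝ)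

theorem coef_re (τ : UpperHalfPlane) (i : ι) : (D.coef τ i).re = 2 * τ.im := by
  simp [coef, Complex.mul_re, Complex.mul_im]

/-- The Gaussian coefficients have positive real part. -/
theorem coef_re_pos (τ : UpperHalfPlane) (i : ι) : 0 < (D.coef τ i).re := by
  rw [D.coef_re]; exact mul_pos two_pos τ.im_pos

theorem coef_ne_zero (τ : UpperHalfPlane) (i : ι) : D.coef τ i ≠ 0 := fun h => by
  simpa [h] using D.coef_re_pos τ i

/-- `exp (2πi (x q + i y maj))`. -/
def phi (τ : UpperHalfPlane) (x : ι → ℝ) : ℂ := gaussTerm D.A (D.coef τ) x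

/-- Translation of the theta kernel. -/
theorem phi_vadd (τ : UpperHalfPlane) (r : ℝ) (x : ι → ℝ) :
    D.phi (r +ᵥ τ) x = D.phi τ x * expi (r * D.quad x) := by
  rw [phi, phi, gaussTerm, gaussTerm, expi, ← Complex.exp_add]
  congr 1
  simp only [coef, UpperHalfPlane.vadd_im, UpperHalfPlane.vadd_re, quad_eq_sum]
  push_cast
  simp only [Finset.mul_sum, ← Finset.sum_add_distrib]
  exact Finset.sum_congr rfl fun i _ => by ring

theorem phi_neg (τ : UpperHalfPlane) (x : ι → ℝ) : D.phi τ (-x) = D.phi τ x :=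
  gaussTerm_neg _ _ _

/-- Theta series with characteristics `ξ`, `η`. -/
def series (τ : UpperHalfPlane) (ξ η : ι → ℝ) : ℂ :=
  ∑' n : ι → ℤ, D.phi τ (intVec n + ξ) * expi (D.bil (intVec n + (1 / 2 : ℝ) • ξ) η)

/-- Theta series of the dual lattice. -/
def dualSeries (τ : UpperHalfPlane) (ξ η : ι → ℝ) : ℂ :=
  ∑' n : ι → ℤ, D.phi τ (D.dualPt n + ξ) * expi (D.bil (D.dualPt n + (1 / 2 : ℝ) • ξ) η)

/-- The theta series converges. -/
theorem summable_series (τ : UpperHalfPlane) (ξ η : ι → ℝ) :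
    Summable fun n : ι → ℤ =>
      D.phi τ (intVec n + ξ) * expi (D.bil (intVec n + (1 / 2 : ℝ) • ξ) η) := by
  have h := LocallyDominated.summable
    (locallyDominated_gauss D.det_ne (D.coef_re_pos τ)) ξ
  refine Summable.of_norm (h.norm.congr fun n => ?_)
  rw [norm_mul, norm_expi, mul_one, add_comm]; rfl

/-- The translation law. -/
theorem series_vadd (τ : UpperHalfPlane) (m : ℤ) (ξ η : ι → ℝ) :
    D.series ((m : ℝ) +ᵥ τ) ξ η = D.series τ ξ (η + (m : ℝ) • ξ) := by
  refine tsum_congr fun n => ?_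
  rw [D.phi_vadd, mul_assoc, ← expi_add]
  congr 1
  obtain ⟨k, hk⟩ := D.exists_quad_intVec n
  have : (m : ℝ) * D.quad (intVec n + ξ) + D.bil (intVec n + (1 / 2 : ℝ) • ξ) η
      = D.bil (intVec n + (1 / 2 : ℝ) • ξ) (η + (m : ℝ) • ξ) + ((m * k : ℤ) : ℝ) := by
    rw [D.quad_add, hk, D.bil_add_right, D.bil_smul_right, D.bil_add_left _ _ ξ, D.bil_smul_left]
    push_cast
    simp only [quad]
    ring
  rw [this, expi_add_int]

theorem dualSeries_vadd (τ : UpperHalfPlane) (m : ℤ) (ξ η : ι → ℝ) :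
    D.dualSeries (((m * D.level : ℤ) : ℝ) +ᵥ τ) ξ η
      = D.dualSeries τ ξ (η + ((m * D.level : ℤ) : ℝ) • ξ) := by
  refine tsum_congr fun n => ?_
  rw [D.phi_vadd, mul_assoc, ← expi_add]
  congr 1
  obtain ⟨k, hk⟩ := D.exists_level_mul_quad_dualPt n
  have : ((m * D.level : ℤ) : ℝ) * D.quad (D.dualPt n + ξ)
        + D.bil (D.dualPt n + (1 / 2 : ℝ) • ξ) η
      = D.bil (D.dualPt n + (1 / 2 : ℝ) • ξ) (η + ((m * D.level : ℤ) : ℝ) • ξ)
        + ((m * k : ℤ) : ℝ) := by
    rw [D.quad_add, D.bil_add_right, D.bil_smul_right, D.bil_add_left _ _ ξ, D.bil_smul_left]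
    push_cast
    rw [← hk]
    simp only [quad]
    ring
  rw [this, expi_add_int]

/-- The theta series is even. -/
theorem series_neg (τ : UpperHalfPlane) (ξ η : ι → ℝ) :
    D.series τ (-ξ) (-η) = D.series τ ξ η := by
  rw [series, series, ← (Equiv.neg (ι → ℤ)).tsum_eq]
  refine tsum_congr fun n => ?_
  have h1 : intVec (Equiv.neg (ι → ℤ) n) = -intVec n := by funext i; simp [intVec]
  rw [h1, ← neg_add, D.phi_neg, smul_neg, ← neg_add, D.bil_neg_left, D.bil_neg_right, neg_neg]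

/-- The constant in the inversion law. -/
def invConst (τ : UpperHalfPlane) : ℂ := gaussConst D.A (D.coef τ)

theorem coef_inversion (τ σ : UpperHalfPlane) (hσ : (σ : ℂ) = -(τ : ℂ)⁻¹) (i : ι) :
    D.coef σ i = 4 / D.coef τ i := by
  rw [eq_div_iff (D.coef_ne_zero τ i)]
  have hτ : (τ : ℂ) ≠ 0 := τ.ne_zero
  have key : (σ : ℂ) * τ = -1 := by rw [hσ, neg_mul, inv_mul_cancel₀ hτ]
  have hr := congrArg Complex.re key
  have hi := congrArg Complex.im key
  simp only [Complex.mul_re, Complex.mul_im, Complex.neg_re, Complex.one_re, Complex.neg_im,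
    Complex.one_im, UpperHalfPlane.coe_re, UpperHalfPlane.coe_im] at hr hi
  rcases D.sgn_sq i with h | h <;> apply Complex.ext <;>
    simp [coef, h, Complex.mul_re, Complex.mul_im] <;> linarith

/-- The inversion law. -/
theorem series_eq_dualSeries (τ σ : UpperHalfPlane) (hσ : (σ : ℂ) = -(τ : ℂ)⁻¹) (ξ η : ι → ℝ) :
    D.series τ ξ η = D.invConst τ * D.dualSeries σ (-η) ξ := by
  set ζ : ι → ℝ := D.gramR *ᵥ η with hζ
  have h := tsum_gauss_mul_expi D.det_ne (D.coef_re_pos τ) ξ ζ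
  have hlhs : D.series τ ξ η = (∑' n : ι → ℤ, gaussTerm D.A (D.coef τ) (ξ + intVec n) *
      expi (∑ i, ζ i * (ξ + intVec n) i)) * expi (-(D.bil ξ η / 2)) := by
    rw [series, ← tsum_mul_right]
    refine tsum_congr fun n => ?_
    rw [mul_assoc, ← expi_add, phi, add_comm (intVec n) ξ]
    congr 2
    show D.bil (intVec n + (1 / 2 : ℝ) • ξ) η = ζ ⬝ᵥ (ξ + intVec n) + _
    rw [dotProduct_comm, hζ]
    show D.bil (intVec n + (1 / 2 : ℝ) • ξ) η = D.bil (ξ + intVec n) η + _
    rw [D.bil_add_left, D.bil_add_left, D.bil_smul_left]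
    ring
  rw [hlhs, h, invConst, dualSeries, mul_assoc]
  congr 1
  rw [← tsum_mul_right]
  refine tsum_congr fun n => ?_
  have hvec : intVec n - ζ = D.gramR *ᵥ (D.dualPt n + -η) := by
    rw [Matrix.mulVec_add, gramR_mulVec_dualPt, Matrix.mulVec_neg, sub_eq_add_neg]
  have hgauss : dualGauss D.A (D.coef τ) (intVec n - ζ) = D.phi σ (D.dualPt n + -η) := by
    rw [dualGauss, phi, gaussTerm, gaussTerm, hvec]
    congr 2
    refine Finset.sum_congr rfl fun i _ => ?_
    have hu : IsUnit D.A.det := isUnit_iff_ne_zero.2 D.det_ne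
    have hmat : (D.A⁻¹)ᵀ *ᵥ (D.gramR *ᵥ (D.dualPt n + -η))
        = (2 : ℝ) • (Matrix.diagonal D.sgn *ᵥ (D.A *ᵥ (D.dualPt n + -η))) := by
      rw [gramR, D.gram_eq, Matrix.smul_mulVec, Matrix.mulVec_smul, ← Matrix.mulVec_mulVec,
        ← Matrix.mulVec_mulVec, Matrix.mulVec_mulVec _ (D.A⁻¹)ᵀ, ← Matrix.transpose_mul,
        Matrix.mul_nonsing_inv _ hu, Matrix.transpose_one, Matrix.one_mulVec]
    rw [hmat, D.coef_inversion τ σ hσ i, Pi.smul_apply, Matrix.mulVec_diagonal, smul_eq_mul]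
    rcases D.sgn_sq i with h | h <;> rw [h] <;> push_cast <;> ring
  rw [hgauss, mul_assoc, ← expi_add]
  congr 2
  show intVec n ⬝ᵥ ξ + _ = D.bil (D.dualPt n + (1 / 2 : ℝ) • -η) ξ
  rw [D.bil_add_left, D.bil_smul_left, D.bil_neg_left, D.bil_comm η ξ,
    D.bil_comm (D.dualPt n) ξ]
  show _ = ξ ⬝ᵥ (D.gramR *ᵥ D.dualPt n) + _
  rw [gramR_mulVec_dualPt, dotProduct_comm]
  ring

theorem invConst_ne_zero (τ : UpperHalfPlane) : D.invConst τ ≠ 0 := by
  rw [invConst, gaussConst]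
  refine mul_ne_zero (by exact_mod_cast inv_ne_zero (abs_ne_zero.2 D.det_ne))
    (Finset.prod_ne_zero_iff.2 fun i _ => ?_)
  rw [Ne, Complex.cpow_eq_zero_iff, not_and_or]
  exact Or.inl (one_div_ne_zero (D.coef_ne_zero τ i))

/-- The law for lower unipotent matrices of the level. -/
theorem series_lower (τ υ : UpperHalfPlane) (m : ℤ)
    (hυ : (υ : ℂ) = τ / ((m * D.level : ℤ) * τ + 1)) (ξ η : ι → ℝ) :
    D.series υ ξ η
      = D.invConst υ / D.invConst τ * D.series τ (ξ + ((m * D.level : ℤ) : ℝ) • η) η := by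
  have hτ : (τ : ℂ) ≠ 0 := τ.ne_zero
  have himτ : 0 < (-(τ : ℂ)⁻¹).im := by
    simp only [Complex.neg_im, Complex.inv_im, UpperHalfPlane.coe_im, neg_div, neg_neg]
    exact div_pos τ.im_pos (Complex.normSq_pos.2 hτ)
  set σ : UpperHalfPlane := ⟨-(τ : ℂ)⁻¹, himτ⟩ with hσ
  set r : ℝ := ((-(m * D.level) : ℤ) : ℝ) with hr
  have h1 : ((r +ᵥ σ : UpperHalfPlane) : ℂ) = -(υ : ℂ)⁻¹ := by
    rw [UpperHalfPlane.coe_vadd, hr, hυ, hσ]
    push_cast
    field_simp
    ring
  rw [D.series_eq_dualSeries υ (r +ᵥ σ) h1,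
    D.series_eq_dualSeries τ σ rfl, hr, ← neg_mul, D.dualSeries_vadd, ← mul_assoc,
    div_mul_cancel₀ _ (D.invConst_ne_zero τ)]
  congr 2
  push_cast
  module

end EvenLattice

end Fermat.Agent.LT.LatticeTheta
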