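import Fermat.Agent.LT.LatticeTheta.Indefinite
import Fermat.Agent.LT.Hyperbolic
import Mathlib.Analysis.Real.Sqrt

/-!
# Hermitian matrices over `ℤ[ζ₃]` as a lattice

The lattice of Hermitian `2 × 2` matrices over `ℤ[ζ₃]` with the form `-det` and the majorant
attached to a point of hyperbolic three-space.
-/

set_option autoImplicit false

noncomputable section

open Complex Matrix
open scoped Real Matrix ComplexOrder ComplexConjugate

namespace Fermat.Agent.LT.LatticeTheta

/-- The Hermitian matrix `[[x₀, β], [β̄, x₁]]`, `β = x₂ + x₃ ζ₃`. -/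
def hermMat (x : Fin 4 → ℝ) : Matrix (Fin 2) (Fin 2) ℂ :=
  !![(x 0 : ℂ), ⟨x 2 - x 3 / 2, √3 / 2 * x 3⟩;
     ⟨x 2 - x 3 / 2, -(√3 / 2 * x 3)⟩, (x 1 : ℂ)]

/-- The quadratic form `-det` on Hermitian matrices. -/
def nForm (X : Matrix (Fin 2) (Fin 2) ℂ) : ℝ := -X.det.re

/-- The majorant `tr ((P⁻¹ X)²) / 2` at a point of hyperbolic three-space. -/
def majForm (P : H3) (X : Matrix (Fin 2) (Fin 2) ℂ) : ℝ :=
  ((P.mat⁻¹ * X * (P.mat⁻¹ * X)).trace).re / 2

/-- The norm form in coordinates. -/
theorem nForm_hermMat (x : Fin 4 → ℝ) :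
    nForm (hermMat x) = x 2 ^ 2 - x 2 * x 3 + x 3 ^ 2 - x 0 * x 1 := by
  have h3 : √3 ^ 2 = (3 : ℝ) := Real.sq_sqrt (by norm_num)
  simp [nForm, hermMat, Matrix.det_fin_two]
  linear_combination (x 3 ^ 2 / 4) * h3

theorem h3_pivot_pos (P : H3) : 0 < (P.mat 0 0).re :=
  (Complex.pos_iff.1 P.posDef.diag_pos).1

/-- A point of three-space is Hermitian. -/
theorem h3_apply_one_zero (P : H3) : P.mat 1 0 = conj (P.mat 0 1) :=
  (P.posDef.isHermitian.apply 1 0).symm

/-- The diagonal of a point of three-space is real. -/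
theorem h3_diag_im (P : H3) (i : Fin 2) : (P.mat i i).im = 0 :=
  ((Complex.pos_iff.1 P.posDef.diag_pos).2).symm

/-- A point of three-space has determinant `1`. -/
theorem h3_det_re (P : H3) :
    (P.mat 0 0).re * (P.mat 1 1).re - ((P.mat 0 1).re ^ 2 + (P.mat 0 1).im ^ 2) = 1 := by
  have h := congrArg Complex.re P.det_eq
  simp only [Matrix.det_fin_two, h3_apply_one_zero, Complex.sub_re, Complex.mul_re,
    Complex.conj_re, Complex.conj_im, Complex.one_re, h3_diag_im, mul_zero] at h
  linarith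

/-- The inverse of a point of three-space. -/
theorem h3_inv (P : H3) :
    P.mat⁻¹ = !![P.mat 1 1, -P.mat 0 1; -P.mat 1 0, P.mat 0 0] := by
  rw [Matrix.inv_def, P.det_eq, Ring.inverse_one, one_smul, Matrix.adjugate_fin_two]

/-- Orthonormal coordinates of the majorant at `P`: the entries of `g⁻¹ X g⁻¹*` for the lower
triangular `g` with `g g* = P`. -/
def majBasis (P : H3) : Matrix (Fin 4) (Fin 4) ℝ :=
  let p := (P.mat 0 0).re
  let u := (P.mat 0 1).re
  let v := (P.mat 0 1).im
  !![-u / p, 0, 1, -1 / 2;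
     -v / p, 0, 0, √3 / 2;
     (1 - u ^ 2 - v ^ 2) / (2 * p), -p / 2, u, -u / 2 + √3 / 2 * v;
     (1 + u ^ 2 + v ^ 2) / (2 * p), p / 2, -u, u / 2 - √3 / 2 * v]

/-- The signature `(3, 1)`. -/
def hermSgn : Fin 4 → ℝ := ![1, 1, 1, -1]

/-- The Gram matrix. -/
def hermGram : Matrix (Fin 4) (Fin 4) ℤ := !![0, -1, 0, 0; -1, 0, 0, 0; 0, 0, 2, -1; 0, 0, -1, 2]

/-- Three times its inverse. -/
def hermAdj : Matrix (Fin 4) (Fin 4) ℤ := !![0, -3, 0, 0; -3, 0, 0, 0; 0, 0, 2, 1; 0, 0, 1, 2]

/-- The Gram matrix diagonalised by the majorant basis. -/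
theorem hermGram_eq (P : H3) : hermGram.map (Int.cast : ℤ → ℝ)
    = (2 : ℝ) • ((majBasis P)ᵀ * Matrix.diagonal hermSgn * majBasis P) := by
  have hp := (h3_pivot_pos P).ne'
  have h3 : √3 ^ 2 = (3 : ℝ) := Real.sq_sqrt (by norm_num)
  ext i j
  rw [Matrix.smul_apply, Matrix.map_apply, Matrix.mul_apply, Fin.sum_univ_four]
  fin_cases i <;> fin_cases j <;>
    simp [hermGram, majBasis, hermSgn, Matrix.mul_diagonal] <;> field_simp <;> ring_nf
  all_goals (simp only [h3]; ring)

theorem hermGram_det : hermGram.det = -3 := by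
  simp [hermGram, Matrix.det_succ_row_zero, Fin.sum_univ_succ, Fin.succAbove]

theorem majBasis_det_sq (P : H3) : (majBasis P).det ^ 2 = 3 / 16 := by
  have h := congrArg Matrix.det (hermGram_eq P)
  have h' : (hermGram.map (Int.cast : ℤ → ℝ)).det = -3 := by
    have := (Int.castRingHom ℝ).map_det hermGram
    rw [hermGram_det] at this
    simpa using this.symm
  rw [h', Matrix.det_smul, Matrix.det_mul, Matrix.det_mul, Matrix.det_transpose,
    Matrix.det_diagonal, Fintype.card_fin] at h
  simp [Fin.prod_univ_four, hermSgn] at h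
  linarith

/-- The majorant basis is invertible. -/
theorem majBasis_det_ne_zero (P : H3) : (majBasis P).det ≠ 0 := fun h => by
  have := majBasis_det_sq P
  rw [h] at this
  norm_num at this

/-- The covolume of the majorant basis. -/
theorem abs_majBasis_det (P : H3) : |(majBasis P).det| = √3 / 4 := by
  rw [← Real.sqrt_sq_eq_abs, majBasis_det_sq, show (3 : ℝ) / 16 = 3 / 4 ^ 2 by norm_num,
    Real.sqrt_div (by norm_num), Real.sqrt_sq (by norm_num)]

/-- The even lattice of Hermitian matrices over `ℤ[ζ₃]`, majorised at `P`. -/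
def hermLattice (P : H3) : EvenLattice (Fin 4) where
  A := majBasis P
  det_ne := majBasis_det_ne_zero P
  sgn := hermSgn
  sgn_sq i := by fin_cases i <;> simp [hermSgn]
  gram := hermGram
  gram_symm := by
    show hermGramᵀ = hermGram
    decide
  gram_even := by decide
  gram_eq := hermGram_eq P
  level := 3
  level_ne := three_ne_zero
  adj := hermAdj
  adj_symm := by
    show hermAdjᵀ = hermAdj
    decide
  adj_even := by decide
  gram_mul_adj := by decide

/-- The quadratic form of the Hermitian lattice is the norm form. -/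
theorem hermLattice_quad (P : H3) (x : Fin 4 → ℝ) :
    (hermLattice P).quad x = nForm (hermMat x) := by
  rw [nForm_hermMat]
  simp [EvenLattice.quad, EvenLattice.bil, EvenLattice.gramR, hermLattice, hermGram,
    Matrix.mulVec, dotProduct, Fin.sum_univ_four]
  ring

/-- The majorant in coordinates. -/
theorem majForm_hermMat (P : H3) (x : Fin 4 → ℝ) :
    majForm P (hermMat x) = ∑ i, (majBasis P *ᵥ x) i ^ 2 := by
  have hp := (h3_pivot_pos P).ne'
  have hs : (P.mat 1 1).re
      = (1 + (P.mat 0 1).re ^ 2 + (P.mat 0 1).im ^ 2) / (P.mat 0 0).re := by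
    rw [eq_div_iff hp]; linarith [h3_det_re P]
  set p := (P.mat 0 0).re
  set u := (P.mat 0 1).re
  set v := (P.mat 0 1).im
  have h00 : P.mat 0 0 = ⟨p, 0⟩ := Complex.ext rfl (h3_diag_im P 0)
  have h01 : P.mat 0 1 = ⟨u, v⟩ := rfl
  have h11 : P.mat 1 1 = ⟨(1 + u ^ 2 + v ^ 2) / p, 0⟩ := Complex.ext hs (h3_diag_im P 1)
  simp only [majForm, majBasis, h3_inv, h3_apply_one_zero]
  rw [show (P.mat 0 0).re = p from rfl, show (P.mat 0 1).re = u from rfl,
    show (P.mat 0 1).im = v from rfl, h00, h01, h11]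
  clear_value p u v
  clear h00 h01 h11 hs
  simp [hermMat, Matrix.trace_fin_two, Matrix.mulVec, dotProduct, Fin.sum_univ_four]
  field_simp
  ring_nf

/-- The theta kernel of the Hermitian lattice. -/
theorem hermLattice_phi (P : H3) (τ : UpperHalfPlane) (x : Fin 4 → ℝ) :
    (hermLattice P).phi τ x = expi (τ.re * nForm (hermMat x))
      * (Real.exp (-2 * π * τ.im * majForm P (hermMat x)) : ℝ) := by
  rw [EvenLattice.phi, gaussTerm, expi, Complex.ofReal_exp, ← Complex.exp_add,
    ← hermLattice_quad P, EvenLattice.quad_eq_sum, majForm_hermMat]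
  congr 1
  simp only [EvenLattice.coef, Fin.sum_univ_four]
  simp only [show (hermLattice P).A = majBasis P from rfl]
  push_cast
  ring

end Fermat.Agent.LT.LatticeTheta
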