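import Mathlib.Analysis.Fourier.AddCircleMulti
import Mathlib.Analysis.Normed.Group.FunctionSeries
import Mathlib.MeasureTheory.Constructions.Pi
import Mathlib.MeasureTheory.Integral.Bochner.Set
import Mathlib.MeasureTheory.Group.Integral
import Mathlib.MeasureTheory.Measure.Lebesgue.Basic

/-!
# Poisson summation on `ℤ^ι ⊆ ℝ^ι`

Poisson summation for continuous functions dominated on compact sets by summable majorants.
-/

set_option autoImplicit false

noncomputable section

open MeasureTheory Complex Topology Filter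
open scoped Real

namespace Fermat.Agent.LT.LatticeTheta

variable {ι : Type*} [Fintype ι]

/-- `e(x) = exp (2πi x)`. -/
def expi (x : ℝ) : ℂ := Complex.exp (2 * π * Complex.I * x)

/-- `expi` turns sums into products. -/
theorem expi_add (x y : ℝ) : expi (x + y) = expi x * expi y := by
  rw [expi, expi, expi, ← Complex.exp_add]; congr 1; push_cast; ring

/-- `expi 0 = 1`. -/
@[simp] theorem expi_zero : expi 0 = 1 := by simp [expi]

theorem expi_int (n : ℤ) : expi n = 1 := by
  rw [expi]
  push_cast
  rw [mul_comm, Complex.exp_int_mul_two_pi_mul_I]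

/-- `expi` has period `1`. -/
theorem expi_add_int (x : ℝ) (n : ℤ) : expi (x + n) = expi x := by
  rw [expi_add, expi_int, mul_one]

/-- `expi` has absolute value `1`. -/
theorem norm_expi (x : ℝ) : ‖expi x‖ = 1 := by
  simp [expi, Complex.norm_exp]

/-- `expi` is continuous. -/
theorem continuous_expi : Continuous expi := by unfold expi; fun_prop

/-- An integral vector as a real vector. -/
def intVec (n : ι → ℤ) : ι → ℝ := fun i => (n i : ℝ)

omit [Fintype ι] in
/-- The coordinates of an integral vector. -/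
@[simp] theorem intVec_apply (n : ι → ℤ) (i : ι) : intVec n i = n i := rfl

/-- `f` is dominated on every ball by a summable majorant along `ℤ^ι`. -/
def LocallyDominated (f : (ι → ℝ) → ℂ) : Prop :=
  ∀ R : ℝ, ∃ bd : (ι → ℤ) → ℝ, Summable bd ∧ ∀ n x, ‖x‖ ≤ R → ‖f (x + intVec n)‖ ≤ bd n

/-- The Fourier transform at an integral frequency. -/
def latticeFourier (f : (ι → ℝ) → ℂ) (m : ι → ℤ) : ℂ :=
  ∫ y : ι → ℝ, f y * expi (-∑ i, (m i : ℝ) * y i)

variable {f : (ι → ℝ) → ℂ}

/-- A dominated function is summable over the lattice. -/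
theorem LocallyDominated.summable (hb : LocallyDominated f) (x : ι → ℝ) :
    Summable fun n => f (x + intVec n) := by
  obtain ⟨bd, hbd, hle⟩ := hb ‖x‖
  exact Summable.of_norm_bounded hbd fun n => hle n x le_rfl

theorem continuous_periodisation (hc : Continuous f) (hb : LocallyDominated f) :
    Continuous fun x => ∑' n, f (x + intVec n) := by
  refine continuous_iff_continuousAt.2 fun x₀ => ?_
  obtain ⟨bd, hbd, hle⟩ := hb (‖x₀‖ + 1)
  refine (continuousOn_tsum (fun n => (hc.comp (continuous_id.add continuous_const)).continuousOn)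
    hbd fun n x hx => hle n x ?_).continuousAt (Metric.ball_mem_nhds x₀ one_pos)
  have h1 := norm_le_norm_add_norm_sub' x x₀
  rw [Metric.mem_ball, dist_eq_norm] at hx
  linarith

omit [Fintype ι] in
theorem periodisation_add (n₀ : ι → ℤ) (x : ι → ℝ) :
    ∑' n, f (x + intVec n₀ + intVec n) = ∑' n, f (x + intVec n) := by
  rw [← (Equiv.addLeft n₀).tsum_eq fun n => f (x + intVec n)]
  refine tsum_congr fun n => congrArg f ?_
  funext i
  simp [add_assoc]

/-- The translates of the unit box. -/
def unitBox (n : ι → ℤ) : Set (ι → ℝ) := {x | ∀ i, x i ∈ Set.Ioc (n i : ℝ) (n i + 1)}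

theorem measurableSet_unitBox (n : ι → ℤ) : MeasurableSet (unitBox n) := by
  have : unitBox n = Set.univ.pi fun i => Set.Ioc (n i : ℝ) (n i + 1) := by
    ext x; simp [unitBox, Set.mem_pi]
  rw [this]
  exact MeasurableSet.univ_pi fun i => measurableSet_Ioc

omit [Fintype ι] in
theorem iUnion_unitBox : ⋃ n : ι → ℤ, unitBox n = Set.univ := by
  refine Set.eq_univ_of_forall fun x => Set.mem_iUnion.2 ⟨fun i => ⌈x i⌉ - 1, fun i => ?_⟩
  have h1 := Int.le_ceil (x i)
  have h2 := Int.ceil_lt_add_one (x i)
  push_cast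
  exact ⟨by linarith, by linarith⟩

omit [Fintype ι] in
theorem pairwise_disjoint_unitBox : Pairwise (Function.onFun Disjoint (unitBox (ι := ι))) := by
  intro n m hnm
  rw [Function.onFun, Set.disjoint_left]
  intro x hn hm
  refine hnm (funext fun i => ?_)
  obtain ⟨a1, a2⟩ := hn i
  obtain ⟨b1, b2⟩ := hm i
  have c1 : (n i : ℝ) < m i + 1 := lt_of_lt_of_le a1 b2
  have c2 : (m i : ℝ) < n i + 1 := lt_of_lt_of_le b1 a2
  norm_cast at c1 c2
  lia

theorem setIntegral_unitBox {E : Type*} [NormedAddCommGroup E] [NormedSpace ℝ E]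
    (g : (ι → ℝ) → E) (n : ι → ℤ) :
    ∫ x in unitBox n, g x = ∫ x in unitBox (0 : ι → ℤ), g (x + intVec n) := by
  rw [← integral_indicator (measurableSet_unitBox n), ← integral_indicator (measurableSet_unitBox 0),
    ← integral_add_right_eq_self (fun x => (unitBox n).indicator g x) (intVec n)]
  refine integral_congr_ae (Eventually.of_forall fun x => ?_)
  show (unitBox n).indicator g (x + intVec n) = (unitBox (0 : ι → ℤ)).indicator _ x
  by_cases h : x ∈ unitBox (0 : ι → ℤ)
  · rw [Set.indicator_of_mem h, Set.indicator_of_mem]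
    intro i
    have := h i
    simp only [Pi.zero_apply, Int.cast_zero, zero_add, Set.mem_Ioc] at this
    simp only [Pi.add_apply, intVec_apply, Set.mem_Ioc]
    constructor <;> linarith
  · rw [Set.indicator_of_notMem h, Set.indicator_of_notMem]
    intro h'
    refine h fun i => ?_
    have := h' i
    simp only [Pi.add_apply, intVec_apply, Set.mem_Ioc] at this
    simp only [Pi.zero_apply, Int.cast_zero, zero_add, Set.mem_Ioc]
    constructor <;> linarith

theorem norm_le_of_mem_unitBox {x : ι → ℝ} (hx : x ∈ unitBox (0 : ι → ℤ)) : ‖x‖ ≤ 1 := by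
  refine (pi_norm_le_iff_of_nonneg zero_le_one).2 fun i => ?_
  have := hx i
  simp only [Pi.zero_apply, Int.cast_zero, zero_add, Set.mem_Ioc] at this
  rw [Real.norm_eq_abs, abs_le]
  constructor <;> linarith

omit [Fintype ι] in
theorem isCompact_closedUnitBox (n : ι → ℤ) :
    IsCompact (Set.univ.pi fun i => Set.Icc (n i : ℝ) (n i + 1)) :=
  isCompact_univ_pi fun _ => isCompact_Icc

theorem volume_unitBox_zero_lt_top :
    (volume : Measure (ι → ℝ)) (unitBox (0 : ι → ℤ)) < ⊤ :=
  lt_of_le_of_lt (measure_mono (fun _ hx i _ => Set.Ioc_subset_Icc_self (hx i) :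
      unitBox (0 : ι → ℤ) ⊆ Set.univ.pi fun i => Set.Icc (((0 : ι → ℤ) i : ℤ) : ℝ) (((0 : ι → ℤ) i : ℤ) + 1)))
    (isCompact_closedUnitBox (0 : ι → ℤ)).measure_lt_top

theorem integrableOn_unitBox {g : (ι → ℝ) → ℂ} (hg : Continuous g) (n : ι → ℤ) :
    IntegrableOn g (unitBox n) :=
  (hg.continuousOn.integrableOn_compact (isCompact_closedUnitBox n)).mono_set
    fun _ hx i _ => Set.Ioc_subset_Icc_self (hx i)

theorem integrable_of_locallyDominated (hc : Continuous f) (hb : LocallyDominated f) :
    Integrable f := by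
  obtain ⟨bd, hbd, hle⟩ := hb 1
  rw [← integrableOn_univ, ← iUnion_unitBox]
  refine integrableOn_iUnion_of_summable_integral_norm (integrableOn_unitBox hc) ?_
  set V : ℝ := (volume : Measure (ι → ℝ)).real (unitBox (0 : ι → ℤ)) with hV
  refine Summable.of_nonneg_of_le (fun n => integral_nonneg fun _ => norm_nonneg _)
    (fun n => ?_) (hbd.mul_right V)
  rw [setIntegral_unitBox (fun x => ‖f x‖) n]
  have hfin := volume_unitBox_zero_lt_top (ι := ι)
  have h := norm_setIntegral_le_of_norm_le_const (C := bd n) hfin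
    (f := fun x => ‖f (x + intVec n)‖) fun x hx => by
      simpa using hle n x (norm_le_of_mem_unitBox hx)
  exact (le_abs_self _).trans h

theorem expi_neg_sum_add_intVec (m n : ι → ℤ) (y : ι → ℝ) :
    expi (-∑ i, (m i : ℝ) * (y + intVec n) i) = expi (-∑ i, (m i : ℝ) * y i) := by
  have h : -∑ i, (m i : ℝ) * (y + intVec n) i
      = -∑ i, (m i : ℝ) * y i + ((-∑ i, m i * n i : ℤ) : ℝ) := by
    push_cast
    simp only [Pi.add_apply, intVec_apply, mul_add, Finset.sum_add_distrib]
    ring
  rw [h, expi_add_int]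

theorem integral_unitBox_periodisation (hc : Continuous f) (hb : LocallyDominated f) (m : ι → ℤ) :
    ∫ x in unitBox (0 : ι → ℤ), expi (-∑ i, (m i : ℝ) * x i) * ∑' n, f (x + intVec n)
      = latticeFourier f m := by
  obtain ⟨bd, hbd, hle⟩ := hb 1
  set g : (ι → ℝ) → ℂ := fun y => f y * expi (-∑ i, (m i : ℝ) * y i) with hg
  have hexp : Continuous fun y : ι → ℝ => expi (-∑ i, (m i : ℝ) * y i) :=
    continuous_expi.comp (by fun_prop)
  have hgc : Continuous g := hc.mul hexp
  have hgi : Integrable g :=
    (integrable_of_locallyDominated hc hb).mul_bdd hexp.aestronglyMeasurable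
      (Eventually.of_forall fun y => (norm_expi _).le)
  have hint : ∀ n : ι → ℤ, IntegrableOn (fun x => g (x + intVec n)) (unitBox (0 : ι → ℤ)) :=
    fun n => integrableOn_unitBox (hgc.comp (by fun_prop)) 0
  have hnorm : ∀ n x, x ∈ unitBox (0 : ι → ℤ) → ‖g (x + intVec n)‖ ≤ bd n := fun n x hx => by
    rw [hg, norm_mul, norm_expi, mul_one]
    exact hle n x (norm_le_of_mem_unitBox hx)
  have hsum : Summable fun n : ι → ℤ => ∫ x in unitBox (0 : ι → ℤ), ‖g (x + intVec n)‖ := by
    have hfin := volume_unitBox_zero_lt_top (ι := ι)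
    refine Summable.of_nonneg_of_le (fun n => integral_nonneg fun _ => norm_nonneg _)
      (fun n => ?_) (hbd.mul_right ((volume : Measure (ι → ℝ)).real (unitBox (0 : ι → ℤ))))
    exact (le_abs_self _).trans (norm_setIntegral_le_of_norm_le_const (C := bd n) hfin
      (f := fun x => ‖g (x + intVec n)‖) fun x hx => by simpa using hnorm n x hx)
  calc ∫ x in unitBox (0 : ι → ℤ), expi (-∑ i, (m i : ℝ) * x i) * ∑' n, f (x + intVec n)
      = ∫ x in unitBox (0 : ι → ℤ), ∑' n, g (x + intVec n) := by
        refine integral_congr_ae (Eventually.of_forall fun x => ?_)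
        simp only [hg, expi_neg_sum_add_intVec]
        rw [← tsum_mul_left]
        exact tsum_congr fun n => mul_comm _ _
    _ = ∑' n, ∫ x in unitBox (0 : ι → ℤ), g (x + intVec n) :=
        (integral_tsum_of_summable_integral_norm hint hsum).symm
    _ = ∑' n, ∫ x in unitBox n, g x := tsum_congr fun n => (setIntegral_unitBox g n).symm
    _ = ∫ x in ⋃ n, unitBox n, g x :=
        (hasSum_integral_iUnion measurableSet_unitBox pairwise_disjoint_unitBox
          hgi.integrableOn).tsum_eq
    _ = latticeFourier f m := by rw [iUnion_unitBox, setIntegral_univ]; rfl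

/-- The quotient map to the torus. -/
def toTorus (x : ι → ℝ) : UnitAddTorus ι := fun i => (x i : UnitAddCircle)

omit [Fintype ι] in
theorem isOpenQuotientMap_toTorus : IsOpenQuotientMap (toTorus (ι := ι)) :=
  IsOpenQuotientMap.piMap fun _ => QuotientAddGroup.isOpenQuotientMap_mk

theorem mFourier_toTorus (m : ι → ℤ) (x : ι → ℝ) :
    UnitAddTorus.mFourier m (toTorus x) = expi (∑ i, (m i : ℝ) * x i) := by
  rw [expi]
  show ∏ i, fourier (m i) (x i : UnitAddCircle) = _
  simp only [fourier_coe_apply]
  rw [← Complex.exp_sum]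
  congr 1
  push_cast
  rw [Finset.mul_sum]
  exact Finset.sum_congr rfl fun i _ => by ring

/-- **Poisson summation** on `ℤ^ι`. -/
theorem tsum_eq_tsum_latticeFourier (hc : Continuous f) (hb : LocallyDominated f)
    (hF : Summable (latticeFourier f)) (x : ι → ℝ) :
    ∑' n, f (x + intVec n) = ∑' m, latticeFourier f m * expi (∑ i, (m i : ℝ) * x i) := by
  have hinj : ∀ y z : ι → ℝ, toTorus y = toTorus z →
      ∑' n, f (y + intVec n) = ∑' n, f (z + intVec n) := by
    intro y z h
    have hi : ∀ i, ∃ k : ℤ, y i = z i + k := fun i => by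
      have := congrFun h i
      rw [toTorus, toTorus, QuotientAddGroup.eq_iff_sub_mem] at this
      obtain ⟨k, hk⟩ := AddSubgroup.mem_zmultiples_iff.1 this
      exact ⟨k, by simp only [zsmul_one] at hk; linarith⟩
    choose k hk using hi
    rw [show y = z + intVec k from funext hk, periodisation_add]
  let F : C(UnitAddTorus ι, ℂ) :=
    { toFun := fun t => ∑' n, f (Function.surjInv isOpenQuotientMap_toTorus.surjective t + intVec n)
      continuous_toFun := by
        rw [← isOpenQuotientMap_toTorus.continuous_comp_iff]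
        refine (continuous_periodisation hc hb).congr fun y => hinj _ _ ?_
        rw [Function.surjInv_eq isOpenQuotientMap_toTorus.surjective] }
  have hFx : ∀ y, F (toTorus y) = ∑' n, f (y + intVec n) := fun y =>
    hinj _ _ (Function.surjInv_eq isOpenQuotientMap_toTorus.surjective _)
  have hcoef : UnitAddTorus.mFourierCoeff F = latticeFourier f := by
    funext m
    rw [UnitAddTorus.mFourierCoeff_eq_integral F m (fun _ => (0 : ℝ)),
      ← integral_unitBox_periodisation hc hb m]
    have : {y : ι → ℝ | ∀ i, y i ∈ Set.Ioc ((fun _ => (0 : ℝ)) i) ((fun _ => (0 : ℝ)) i + 1)}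
        = unitBox (0 : ι → ℤ) := by
      ext y; simp [unitBox]
    rw [this]
    refine integral_congr_ae (Eventually.of_forall fun y => ?_)
    show UnitAddTorus.mFourier (-m) (toTorus y) • F (toTorus y) = _
    rw [mFourier_toTorus, hFx, smul_eq_mul]
    congr 2
    simp [Finset.sum_neg_distrib]
  have h := UnitAddTorus.hasSum_mFourier_series_apply_of_summable (f := F) (hcoef ▸ hF) (toTorus x)
  rw [hcoef] at h
  rw [← hFx x, ← h.tsum_eq]
  exact tsum_congr fun m => by rw [smul_eq_mul, mFourier_toTorus]

end Fermat.Agent.LT.LatticeTheta
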