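import Fermat.Agent.LT.LatticeTheta.Lattice
import Fermat.Agent.LT.LatticeTheta.Gamma0Three
import Mathlib.NumberTheory.LegendreSymbol.QuadraticChar.Basic
import Mathlib.NumberTheory.DirichletCharacter.Basic
import Mathlib.Analysis.SpecialFunctions.Pow.Complex

/-!
# The theta series of Hermitian matrices over `ℤ[ζ₃]`

Its transformation law of weight one and character `χ₋₃` under `Γ₀(3)`.
-/

set_option autoImplicit false

noncomputable section

open Complex Matrix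
open scoped Real Matrix MatrixGroups ComplexConjugate

namespace Fermat.Agent.LT.LatticeTheta

/-- The odd quadratic character modulo `3`. -/
def chiThree : DirichletCharacter ℂ 3 :=
  (quadraticChar (ZMod 3)).ringHomComp (Int.castRingHom ℂ)

/-- `χ₋₃(-1) = -1`. -/
theorem chiThree_neg_one : chiThree (-1) = -1 := by
  have h : quadraticChar (ZMod 3) (-1) = -1 := by decide
  simp [chiThree, MulChar.ringHomComp_apply, h]

/-- The theta series with characteristics. -/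
def thetaChar (P : H3) (τ : UpperHalfPlane) (ξ η : Fin 4 → ℝ) : ℂ :=
  (√τ.im : ℝ) * (hermLattice P).series τ ξ η

/-- The Gaussian constant of the lattice in closed form. -/
theorem hermLattice_invConst (P : H3) (τ : UpperHalfPlane) :
    (hermLattice P).invConst τ
      = ((4 / √3 : ℝ) : ℂ) * (1 / (-2 * I * τ)) * (‖(1 / (-2 * I * τ) : ℂ)‖ : ℝ) := by
  set z : ℂ := 1 / (-2 * I * τ) with hz
  have hden : (-2 * I * (τ : ℂ)) = ((2 * τ.im : ℝ) : ℂ) - 2 * I * (τ.re : ℝ) := by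
    apply Complex.ext <;> simp
  have hre : 0 < z.re := by
    rw [hz, one_div]
    refine re_inv_pos ?_
    rw [hden]
    simp [τ.im_pos]
  have hp : ∀ i : Fin 4, i ≠ 3 → (hermLattice P).coef τ i = -2 * I * τ := fun i hi => by
    rw [hden]
    fin_cases i <;> simp [EvenLattice.coef, hermLattice, hermSgn] at hi ⊢
  have hm : 1 / (hermLattice P).coef τ 3 = conj z := by
    rw [hz, hden]
    simp [EvenLattice.coef, hermLattice, hermSgn, Complex.conj_ofNat, sub_eq_add_neg]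
  have harg : z.arg ≠ π := fun h => by
    have := (Complex.arg_eq_pi_iff.1 h).1
    linarith
  have hhalf : z ^ (1 / 2 : ℂ) * z ^ (1 / 2 : ℂ) = z := by
    rw [← sq, ← Complex.cpow_nat_mul, show ((2 : ℕ) : ℂ) * (1 / 2) = 1 by norm_num,
      Complex.cpow_one]
  have hconj : (conj z) ^ (1 / 2 : ℂ) = conj (z ^ (1 / 2 : ℂ)) := by
    rw [Complex.conj_cpow _ _ harg]
    simp [Complex.conj_ofNat]
  rw [EvenLattice.invConst, gaussConst, Fin.prod_univ_four, hp 0 (by decide), hp 1 (by decide),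
    hp 2 (by decide), hm, hconj, show (hermLattice P).A = majBasis P from rfl, abs_majBasis_det,
    inv_div, ← hz]
  have hn : z ^ (1 / 2 : ℂ) * conj (z ^ (1 / 2 : ℂ)) = ((‖z‖ : ℝ) : ℂ) := by
    rw [Complex.mul_conj', ← Complex.ofReal_pow, ← norm_pow, sq, hhalf]
  calc _ = ((4 / √3 : ℝ) : ℂ) * (z ^ (1 / 2 : ℂ) * z ^ (1 / 2 : ℂ))
        * (z ^ (1 / 2 : ℂ) * conj (z ^ (1 / 2 : ℂ))) := by ring
    _ = _ := by rw [hhalf, hn]

/-- The transformation of `thetaChar` under an element of `SL₂(ℤ)`. -/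
def ThetaLaw (P : H3) (g : SL(2, ℤ)) : Prop :=
  (3 : ℤ) ∣ g 1 0 ∧ ∀ (τ : UpperHalfPlane) (ξ η : Fin 4 → ℝ),
    thetaChar P (g • τ) ξ η = chiThree ((g 1 1 : ℤ) : ZMod 3) * ((g 1 0 : ℤ) * (τ : ℂ) + (g 1 1 : ℤ))
      * thetaChar P τ ((g 0 0 : ℝ) • ξ + (g 1 0 : ℝ) • η) ((g 0 1 : ℝ) • ξ + (g 1 1 : ℝ) • η)

theorem thetaLaw_one (P : H3) : ThetaLaw P 1 :=
  ⟨by simp, fun τ ξ η => by simp [one_smul]⟩

theorem thetaLaw_neg (P : H3) {g : SL(2, ℤ)} (h : ThetaLaw P g) : ThetaLaw P (-g) := by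
  refine ⟨by simpa using h.1, fun τ ξ η => ?_⟩
  rw [ModularGroup.SL_neg_smul, h.2 τ ξ η]
  simp only [SpecialLinearGroup.coe_neg, Matrix.neg_apply, Int.cast_neg, neg_smul, ← neg_add]
  rw [show (-(((g 1 1 : ℤ) : ZMod 3))) = (-1) * ((g 1 1 : ℤ) : ZMod 3) by ring, map_mul,
    chiThree_neg_one, thetaChar, thetaChar, EvenLattice.series_neg]
  ring

theorem thetaLaw_upper (P : H3) {g : SL(2, ℤ)} (n : ℤ) (h : ThetaLaw P g) :
    ThetaLaw P (upperMat n * g) := by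
  refine ⟨by simpa [coe_upperMat, Matrix.mul_apply, Fin.sum_univ_two] using h.1,
    fun τ ξ η => ?_⟩
  have e : upperMat n • (g • τ) = (n : ℝ) +ᵥ g • τ := by
    ext1
    rw [UpperHalfPlane.coe_specialLinearGroup_apply, UpperHalfPlane.coe_vadd]
    simp [coe_upperMat, add_comm]
  rw [mul_smul, e, thetaChar, UpperHalfPlane.vadd_im, EvenLattice.series_vadd, ← thetaChar,
    h.2 τ]
  have e00 : (upperMat n * g) 0 0 = g 0 0 + n * g 1 0 := by
    simp [coe_upperMat, Matrix.mul_apply, Fin.sum_univ_two]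
  have e01 : (upperMat n * g) 0 1 = g 0 1 + n * g 1 1 := by
    simp [coe_upperMat, Matrix.mul_apply, Fin.sum_univ_two]
  have e10 : (upperMat n * g) 1 0 = g 1 0 := by
    simp [coe_upperMat, Matrix.mul_apply, Fin.sum_univ_two]
  have e11 : (upperMat n * g) 1 1 = g 1 1 := by
    simp [coe_upperMat, Matrix.mul_apply, Fin.sum_univ_two]
  rw [e00, e01, e10, e11]
  congr 1
  congr 1 <;> push_cast <;> module

theorem thetaChar_lower (P : H3) (n : ℤ) (τ : UpperHalfPlane) (ξ η : Fin 4 → ℝ) :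
    thetaChar P (lowerMat (3 * n) • τ) ξ η
      = (((3 * n : ℤ) : ℂ) * τ + 1) * thetaChar P τ (ξ + ((3 * n : ℤ) : ℝ) • η) η := by
  set c : ℤ := 3 * n with hc
  set υ := lowerMat c • τ with hυ
  set d : ℂ := (c : ℂ) * τ + 1 with hd
  have hυ' : (υ : ℂ) = τ / d := by
    rw [hυ, UpperHalfPlane.coe_specialLinearGroup_apply]
    simp [hd, coe_lowerMat]
  have hd0 : d ≠ 0 := fun h => υ.ne_zero (by rw [hυ', h, div_zero])
  have him : υ.im = τ.im / ‖d‖ ^ 2 := by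
    rw [hυ, ModularGroup.im_smul_eq_div_normSq, ← Complex.normSq_eq_norm_sq]
    congr 2
    simp [hd, ModularGroup.denom_apply, coe_lowerMat]
  have hlow := (hermLattice P).series_lower τ υ n
    (by rw [hυ', hd, hc, show (hermLattice P).level = 3 from rfl]; push_cast; ring) ξ η
  rw [show n * (hermLattice P).level = c from by rw [hc]; exact mul_comm _ _] at hlow
  rw [thetaChar, hlow, thetaChar, him, Real.sqrt_div τ.im_pos.le, Real.sqrt_sq (norm_nonneg _),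
    hermLattice_invConst, hermLattice_invConst, hυ']
  have hτ := τ.ne_zero
  have hk : ((4 / √3 : ℝ) : ℂ) ≠ 0 := by
    simp
  have hw : (1 : ℂ) / (-2 * I * (τ / d)) = d * (1 / (-2 * I * τ)) := by field_simp
  have hz : (1 : ℂ) / (-2 * I * τ) ≠ 0 := by simp [hτ]
  rw [hw, norm_mul]
  generalize (1 : ℂ) / (-2 * I * τ) = z at hz ⊢
  have hnd : ((‖d‖ : ℝ) : ℂ) ≠ 0 := by simpa using hd0
  have hnz : ((‖z‖ : ℝ) : ℂ) ≠ 0 := by simpa using hz
  push_cast
  field_simp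

theorem thetaLaw_lower (P : H3) {g : SL(2, ℤ)} (n : ℤ) (h : ThetaLaw P g) :
    ThetaLaw P (lowerMat (3 * n) * g) := by
  have hb : (3 : ℤ) ∣ 3 * n := dvd_mul_right _ _
  refine ⟨?_, fun τ ξ η => ?_⟩
  · simpa [coe_lowerMat, Matrix.mul_apply, Fin.sum_univ_two] using
      dvd_add (dvd_mul_of_dvd_left hb (g 0 0)) h.1
  rw [mul_smul, thetaChar_lower, h.2 τ]
  have hd : (((lowerMat (3 * n) * g) 1 1 : ℤ) : ZMod 3) = ((g 1 1 : ℤ) : ZMod 3) := by
    simp [coe_lowerMat, Matrix.mul_apply, Fin.sum_univ_two, show (3 : ZMod 3) = 0 from rfl]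
  rw [hd]
  set j : ℂ := (g 1 0 : ℤ) * (τ : ℂ) + (g 1 1 : ℤ) with hj
  have hj0 : j ≠ 0 := by
    have := UpperHalfPlane.denom_ne_zero (Matrix.SpecialLinearGroup.mapGL ℝ g) τ
    simpa [hj, UpperHalfPlane.denom] using this
  have e00 : (lowerMat (3 * n) * g) 0 0 = g 0 0 := by
    simp [coe_lowerMat, Matrix.mul_apply, Fin.sum_univ_two]
  have e01 : (lowerMat (3 * n) * g) 0 1 = g 0 1 := by
    simp [coe_lowerMat, Matrix.mul_apply, Fin.sum_univ_two]
  have e10 : (lowerMat (3 * n) * g) 1 0 = 3 * n * g 0 0 + g 1 0 := by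
    simp [coe_lowerMat, Matrix.mul_apply, Fin.sum_univ_two]
  have e11 : (lowerMat (3 * n) * g) 1 1 = 3 * n * g 0 1 + g 1 1 := by
    simp [coe_lowerMat, Matrix.mul_apply, Fin.sum_univ_two]
  have key : (((3 * n : ℤ) : ℂ) * (g • τ : UpperHalfPlane) + 1) * j
      = ((3 * n * g 0 0 + g 1 0 : ℤ) : ℂ) * τ + ((3 * n * g 0 1 + g 1 1 : ℤ) : ℂ) := by
    rw [UpperHalfPlane.coe_specialLinearGroup_apply]
    simp
    rw [← hj]
    field_simp
    rw [hj]
    ring
  rw [e00, e01, e10, e11, ← key,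
    show (g 0 0 : ℝ) • (ξ + ((3 * n : ℤ) : ℝ) • η) + (g 1 0 : ℝ) • η
      = (g 0 0 : ℝ) • ξ + ((3 * n * g 0 0 + g 1 0 : ℤ) : ℝ) • η by push_cast; module,
    show (g 0 1 : ℝ) • (ξ + ((3 * n : ℤ) : ℝ) • η) + (g 1 1 : ℝ) • η
      = (g 0 1 : ℝ) • ξ + ((3 * n * g 0 1 + g 1 1 : ℤ) : ℝ) • η by push_cast; module]
  ring

/-- **Transformation of the theta series with characteristics** under `Γ₀(3)`. -/
theorem thetaChar_smul (P : H3) {g : SL(2, ℤ)} (hg : (3 : ℤ) ∣ g 1 0) (τ : UpperHalfPlane)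
    (ξ η : Fin 4 → ℝ) :
    thetaChar P (g • τ) ξ η = chiThree ((g 1 1 : ℤ) : ZMod 3) * ((g 1 0 : ℤ) * (τ : ℂ) + (g 1 1 : ℤ))
      * thetaChar P τ ((g 0 0 : ℝ) • ξ + (g 1 0 : ℝ) • η) ((g 0 1 : ℝ) • ξ + (g 1 1 : ℝ) • η) :=
  (gamma0Three_induction (thetaLaw_one P) (fun _ => thetaLaw_neg P)
    (fun _ n => thetaLaw_upper P n) (fun _ n => thetaLaw_lower P n) hg).2 τ ξ η

end Fermat.Agent.LT.LatticeTheta
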